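import Fermat.Agent.BombieriVinogradov.Main
import Fermat.Agent.MeanValue.LargeSieve

/-!
# Variance of `ψ (x; q, a)` over the classes modulo `q`

Orthogonality turns it into the mean of `|ψ (x, χ)|²`; the sharp large sieve gives that mean in
dyadic ranges of conductors.
-/

set_option autoImplicit false

noncomputable section

namespace FA.BarbanDavenportHalberstam

open Finset Complex ArithmeticFunction
open FA.ThreePrimes (logOne arcCentres unitResidues)
open FA.BombieriVinogradov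
open scoped Real ComplexConjugate

/-- **The log-free large sieve for characters.** -/
theorem largeSieve_chars_sharp (Q M N : ℕ) (a : ℕ → ℂ) :
    ∑ q ∈ Icc 1 Q, (q : ℝ) / q.totient *
      ∑ χ ∈ primChars q, ‖∑ n ∈ Ioc M (M + N), a n * χ n‖ ^ 2 ≤
        ((N : ℝ) + (Q : ℝ) * Q) * ∑ n ∈ Ioc M (M + N), ‖a n‖ ^ 2 := by
  refine le_trans ?_ (FA.MeanValue.large_sieve_farey Q M N a)
  rw [arcCentres, sum_sigma]
  refine sum_le_sum fun q hq => ?_
  rw [mem_Icc] at hq
  have : NeZero q := ⟨by omega⟩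
  rw [div_mul_eq_mul_div, div_le_iff₀ (Nat.cast_pos.2 (Nat.totient_pos.2 hq.1)), mul_comm _
    (q.totient : ℝ)]
  exact sum_primChars_le _ a

/-- **Plancherel** on the characters modulo `q`. -/
theorem sum_norm_sq_charComb {q : ℕ} [NeZero q] (c : DirichletCharacter ℂ q → ℂ) :
    ∑ b : ZMod q, ‖∑ χ : DirichletCharacter ℂ q, c χ * χ b‖ ^ 2 =
      q.totient * ∑ χ : DirichletCharacter ℂ q, ‖c χ‖ ^ 2 := by
  classical
  apply Complex.ofReal_injective
  push_cast
  simp only [← Complex.mul_conj', map_sum, map_mul, sum_mul_sum]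
  rw [sum_comm, mul_sum]
  refine sum_congr rfl fun χ _ => ?_
  rw [sum_comm, sum_eq_single χ]
  · have e : ∀ b : ZMod q, c χ * χ b * (conj (c χ) * conj (χ b)) =
        c χ * conj (c χ) * (χ * χ⁻¹) b := fun b => by
      rw [show conj (χ b) = χ⁻¹ b from MulChar.star_apply' χ b, MulChar.mul_apply]
      ring
    rw [sum_congr rfl fun b _ => e b, ← mul_sum, mul_inv_cancel,
      MulChar.sum_one_eq_card_units, ZMod.card_units_eq_totient]
    ring
  · intro ψ _ hne
    have e : ∀ b : ZMod q, c χ * χ b * (conj (c ψ) * conj (ψ b)) =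
        c χ * conj (c ψ) * (χ * ψ⁻¹) b := fun b => by
      rw [show conj (ψ b) = ψ⁻¹ b from MulChar.star_apply' ψ b, MulChar.mul_apply]
      ring
    rw [sum_congr rfl fun b _ => e b, ← mul_sum,
      MulChar.sum_eq_zero_of_ne_one (fun h => hne (mul_inv_eq_one.1 h).symm), mul_zero]
  · simp

/-- The coefficients of `φ q ψ (x; q, a) - x`. -/
def centredSum (x : ℕ) {q : ℕ} (χ : DirichletCharacter ℂ q) : ℂ :=
  open scoped Classical in charSum χ Λ x - if χ = 1 then (x : ℂ) else 0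

/-- **The variance against the characters.** -/
theorem variance_le {q : ℕ} [NeZero q] (x : ℕ) :
    ∑ a ∈ unitResidues q, (psiAP x q a - x / q.totient) ^ 2 ≤
      (∑ χ : DirichletCharacter ℂ q, ‖centredSum x χ‖ ^ 2) / q.totient := by
  classical
  have hφ : (0 : ℝ) < q.totient := Nat.cast_pos.2 (Nat.totient_pos.2 (NeZero.pos q))
  obtain ⟨f, hf⟩ : ∃ f : ZMod q → ℂ,
      f = fun b => ∑ χ : DirichletCharacter ℂ q, centredSum x χ * χ b := ⟨_, rfl⟩
  have hu : ∀ a ∈ unitResidues q, IsUnit (a : ZMod q) := fun a ha => by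
    rw [unitResidues, mem_filter] at ha
    exact (ZMod.isUnit_iff_coprime a q).2 ha.2.symm
  have hval : ∀ a ∈ unitResidues q,
      ((q.totient : ℝ) * (psiAP x q a - x / q.totient)) ^ 2 = ‖f ((a : ZMod q)⁻¹)‖ ^ 2 := by
    intro a ha
    rw [← sq_abs, ← Real.norm_eq_abs, ← Complex.norm_real, mul_sub, mul_div_cancel₀ _ hφ.ne',
      Complex.ofReal_sub, psiAP_eq (hu a ha), hf]
    congr 2
    simp only [centredSum, sub_mul, sum_sub_distrib, ite_mul, zero_mul, sum_ite_eq', mem_univ,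
      if_true]
    obtain ⟨u, hu'⟩ := hu a ha
    rw [← hu', ZMod.inv_coe_unit, MulChar.one_apply_coe, mul_one, Complex.ofReal_natCast]
    congr 1
    exact sum_congr rfl fun χ _ => mul_comm _ _
  have hinj : Set.InjOn (fun a : ℕ => (a : ZMod q)⁻¹) (unitResidues q : Finset ℕ) := by
    intro a ha b hb h
    have ha' : a < q := by
      rw [Finset.mem_coe, unitResidues, mem_filter, mem_range] at ha
      exact ha.1
    have hb' : b < q := by
      rw [Finset.mem_coe, unitResidues, mem_filter, mem_range] at hb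
      exact hb.1
    obtain ⟨u, hu1⟩ := hu a ha
    obtain ⟨v, hv1⟩ := hu b hb
    simp only [← hu1, ← hv1, ZMod.inv_coe_unit] at h
    have : (a : ZMod q) = (b : ZMod q) := by rw [← hu1, ← hv1, inv_inj.1 (Units.ext h)]
    simpa [ZMod.val_cast_of_lt ha', ZMod.val_cast_of_lt hb'] using congrArg ZMod.val this
  rw [le_div_iff₀ hφ]
  refine le_of_mul_le_mul_left ?_ hφ
  calc (q.totient : ℝ) * ((∑ a ∈ unitResidues q, (psiAP x q a - x / q.totient) ^ 2) * q.totient) =
        ∑ a ∈ unitResidues q, ‖f ((a : ZMod q)⁻¹)‖ ^ 2 := by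
        rw [sum_mul, mul_sum]
        refine sum_congr rfl fun a ha => ?_
        rw [← hval a ha]
        ring
    _ = ∑ b ∈ (unitResidues q).image (fun a : ℕ => (a : ZMod q)⁻¹), ‖f b‖ ^ 2 :=
        (sum_image (f := fun b => ‖f b‖ ^ 2) hinj).symm
    _ ≤ ∑ b : ZMod q, ‖f b‖ ^ 2 :=
        sum_le_sum_of_subset_of_nonneg (subset_univ _) fun b _ _ => sq_nonneg _
    _ = _ := by rw [hf]; exact sum_norm_sq_charComb _

/-- At most `log₂ q` primes divide `q`. -/
theorem card_primeFactors_le {q : ℕ} (hq : q ≠ 0) : (q.primeFactors.card : ℝ) ≤ 2 * logOne q := by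
  have h : 2 ^ q.primeFactors.card ≤ q :=
    (pow_card_le_prod _ _ _ fun p hp => (Nat.prime_of_mem_primeFactors hp).two_le).trans
      (Nat.le_of_dvd (Nat.pos_of_ne_zero hq) (Nat.prod_primeFactors_dvd q))
  have h' : ((2 : ℝ) ^ q.primeFactors.card) ≤ q := by exact_mod_cast h
  have h'' := Real.log_le_log (by positivity) h'
  rw [Real.log_pow] at h''
  rw [logOne]
  nlinarith [Real.log_two_gt_d9, (Nat.cast_nonneg q.primeFactors.card : (0 : ℝ) ≤ _),
    Real.log_natCast_nonneg q]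

/-- The prime powers sharing a factor with `q`. -/
theorem bad_sum_log_le (q x : ℕ) [NeZero q] :
    ∑ n ∈ (Ioc 0 x).filter (fun n => ¬ n.Coprime q), Λ n ≤ 2 * logOne q * logOne x := by
  classical
  have hsub : ∑ n ∈ (Ioc 0 x).filter (fun n => ¬ n.Coprime q), Λ n =
      ∑ n ∈ ((Ioc 0 x).filter (fun n => ¬ n.Coprime q)).filter IsPrimePow, Λ n := by
    refine (sum_subset (filter_subset _ _) fun n hn hn' => ?_).symm
    rw [mem_filter, not_and] at hn'
    exact vonMangoldt_eq_zero_iff.2 (hn' hn)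
  have hmaps : ∀ n ∈ ((Ioc 0 x).filter (fun n => ¬ n.Coprime q)).filter IsPrimePow,
      n.minFac ∈ q.primeFactors := by
    intro n hn
    rw [mem_filter, mem_filter] at hn
    obtain ⟨p, k, hp, hk, rfl⟩ := hn.2
    have hp' : p.Prime := Nat.prime_iff.2 hp
    rw [Nat.Prime.pow_minFac hp' hk.ne', Nat.mem_primeFactors]
    refine ⟨hp', ?_, NeZero.ne q⟩
    by_contra h
    exact hn.1.2 (Nat.Coprime.pow_left _ (hp'.coprime_iff_not_dvd.2 h))
  rw [hsub, ← sum_fiberwise_of_maps_to hmaps]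
  have hfib : ∀ p ∈ q.primeFactors,
      ∑ n ∈ (((Ioc 0 x).filter (fun n => ¬ n.Coprime q)).filter IsPrimePow).filter
        (fun n => n.minFac = p), Λ n ≤ logOne x := by
    intro p hp
    have hp' := Nat.prime_of_mem_primeFactors hp
    refine (sum_le_sum_of_subset_of_nonneg (t := (Icc 1 (Nat.log p x)).image (p ^ ·)) ?_
      fun n _ _ => vonMangoldt_nonneg).trans ?_
    · intro n hn
      simp only [mem_filter, mem_Ioc] at hn
      obtain ⟨⟨⟨⟨h0, hx⟩, -⟩, p', k, hp1, hk, rfl⟩, hmin⟩ := hn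
      have hp1' : p'.Prime := Nat.prime_iff.2 hp1
      rw [Nat.Prime.pow_minFac hp1' hk.ne'] at hmin
      subst hmin
      exact mem_image.2 ⟨k, mem_Icc.2 ⟨hk, Nat.le_log_of_pow_le hp1'.one_lt hx⟩, rfl⟩
    · rw [sum_image fun a _ b _ h => Nat.pow_right_injective hp'.two_le h]
      refine (sum_le_sum (g := fun _ => Real.log p) fun k hk => ?_).trans ?_
      · rw [vonMangoldt_apply_pow (Nat.one_le_iff_ne_zero.1 (mem_Icc.1 hk).1),
          vonMangoldt_apply_prime hp']
      · rw [sum_const, Nat.card_Icc, Nat.add_sub_cancel, nsmul_eq_mul, ← Real.log_pow, logOne]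
        rcases Nat.eq_zero_or_pos x with rfl | hx
        · simp
        · have h : ((p : ℝ) ^ Nat.log p x) ≤ x := by exact_mod_cast Nat.pow_log_le_self p hx.ne'
          linarith [Real.log_le_log (pow_pos (Nat.cast_pos.2 hp'.pos) _) h]
  refine (sum_le_card_nsmul _ _ _ hfib).trans ?_
  rw [nsmul_eq_mul]
  exact mul_le_mul_of_nonneg_right (card_primeFactors_le (NeZero.ne q))
    (by linarith [ThreePrimes.one_le_logOne x])

theorem norm_changeLevel_log_le {d q : ℕ} [NeZero q] (h : d ∣ q) (ψ : DirichletCharacter ℂ d)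
    (x : ℕ) : ‖charSum (DirichletCharacter.changeLevel h ψ) Λ x‖ ≤
      ‖charSum ψ Λ x‖ + 2 * logOne q * logOne x := by
  classical
  have e : charSum (DirichletCharacter.changeLevel h ψ) Λ x = charSum ψ Λ x -
      ∑ n ∈ (Ioc 0 x).filter (fun n => ¬ n.Coprime q), (Λ n : ℂ) * ψ n := by
    rw [eq_sub_iff_add_eq, charSum, charSum, sum_filter, ← sum_add_distrib]
    refine sum_congr rfl fun n _ => ?_
    by_cases hn : n.Coprime q
    · rw [if_neg (not_not_intro hn), add_zero]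
      congr 1
      have hu : IsCoprime (n : ℤ) q := Nat.isCoprime_iff_coprime.2 hn
      have := DirichletCharacter.changeLevel_eq_cast_of_dvd' ψ h hu
      push_cast at this
      exact this
    · rw [if_pos hn, MulChar.map_nonunit _ fun hu => hn ((ZMod.isUnit_iff_coprime n q).1 hu),
        mul_zero, zero_add]
  rw [e]
  refine (norm_sub_le _ _).trans (add_le_add le_rfl ((norm_sum_le _ _).trans
    (le_trans (sum_le_sum fun n _ => ?_) (bad_sum_log_le q x))))
  rw [norm_mul, Complex.norm_real, Real.norm_eq_abs, abs_of_nonneg vonMangoldt_nonneg]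
  exact mul_le_of_le_one_right vonMangoldt_nonneg (DirichletCharacter.norm_le_one ψ _)

/-- The principal coefficient. -/
theorem norm_centredSum_one_le {q : ℕ} [NeZero q] (x : ℕ) :
    ‖centredSum x (1 : DirichletCharacter ℂ q)‖ ≤
      |∑ n ∈ Ioc 0 x, Λ n - x| + 2 * logOne q * logOne x := by
  classical
  rw [centredSum, if_pos rfl, show charSum (1 : DirichletCharacter ℂ q) Λ x - (x : ℂ) =
    ((∑ n ∈ Ioc 0 x, Λ n - x : ℝ) : ℂ) +
      (charSum (1 : DirichletCharacter ℂ q) Λ x - ((∑ n ∈ Ioc 0 x, Λ n : ℝ) : ℂ)) by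
    push_cast; ring]
  refine (norm_add_le _ _).trans (add_le_add (le_of_eq ?_) (le_trans ?_ (bad_sum_log_le q x)))
  · rw [Complex.norm_real, Real.norm_eq_abs]
  rw [charSum, Complex.ofReal_sum, sum_filter, ← sum_sub_distrib]
  refine (norm_sum_le _ _).trans (sum_le_sum fun n _ => ?_)
  by_cases hn : n.Coprime q
  · rw [if_neg (not_not_intro hn), MulChar.one_apply ((ZMod.isUnit_iff_coprime n q).2 hn),
      mul_one, sub_self, norm_zero]
  · rw [if_pos hn, MulChar.map_nonunit _ fun hu => hn ((ZMod.isUnit_iff_coprime n q).1 hu),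
      mul_zero, zero_sub, norm_neg, Complex.norm_real, Real.norm_eq_abs,
      abs_of_nonneg vonMangoldt_nonneg]

/-- The mean square over the primitive characters of conductor `d`. -/
def primSquare (x d : ℕ) : ℝ := ∑ χ ∈ primChars d, ‖charSum χ Λ x‖ ^ 2

theorem primSquare_nonneg (x d : ℕ) : 0 ≤ primSquare x d := sum_nonneg fun _ _ => sq_nonneg _

/-- All nontrivial characters of one modulus. -/
theorem sum_nontrivial_sq_le {q : ℕ} [NeZero q] (x : ℕ) :
    ∑ χ ∈ (univ : Finset (DirichletCharacter ℂ q)).erase 1, ‖centredSum x χ‖ ^ 2 ≤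
      2 * (∑ z ∈ inducing q, ‖charSum z.2 Λ x‖ ^ 2) +
        q.totient * (2 * (2 * logOne q * logOne x) ^ 2) := by
  classical
  have hinj : Set.InjOn (fun χ : DirichletCharacter ℂ q =>
      (⟨χ.conductor, χ.primitiveCharacter⟩ : Σ d : ℕ, DirichletCharacter ℂ d))
      ((univ : Finset (DirichletCharacter ℂ q)).erase 1 : Finset _) := by
    intro χ _ χ' _ h
    obtain ⟨G, hG⟩ : ∃ G : (Σ d : ℕ, DirichletCharacter ℂ d) → DirichletCharacter ℂ q,
        G = fun z => if h : z.1 ∣ q then DirichletCharacter.changeLevel h z.2 else 1 := ⟨_, rfl⟩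
    have hGJ : ∀ χ : DirichletCharacter ℂ q, G ⟨χ.conductor, χ.primitiveCharacter⟩ = χ :=
      fun χ => by
        rw [hG]
        simp only
        rw [dif_pos χ.conductor_dvd_level]
        exact DirichletCharacter.changeLevel_primitiveCharacter χ
    rw [← hGJ χ, ← hGJ χ']
    exact congrArg G h
  have hsub : ((univ : Finset (DirichletCharacter ℂ q)).erase 1).image (fun χ =>
      (⟨χ.conductor, χ.primitiveCharacter⟩ : Σ d : ℕ, DirichletCharacter ℂ d)) ⊆ inducing q := by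
    intro z hz
    rw [mem_image] at hz
    obtain ⟨χ, hχ, rfl⟩ := hz
    rw [mem_erase] at hχ
    rw [inducing, mem_sigma, mem_filter, Nat.mem_divisors]
    have h0 := χ.conductor_ne_zero
    have h1 : χ.conductor ≠ 1 := fun h => hχ.1 (χ.eq_one_iff_conductor_eq_one.2 h)
    have : NeZero χ.conductor := ⟨h0⟩
    exact ⟨⟨⟨χ.conductor_dvd_level, NeZero.ne q⟩, show 2 ≤ χ.conductor by omega⟩,
      mem_primChars.2 χ.primitiveCharacter_isPrimitive⟩
  have hstep : ∀ χ ∈ (univ : Finset (DirichletCharacter ℂ q)).erase 1, ‖centredSum x χ‖ ^ 2 ≤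
      2 * ‖charSum χ.primitiveCharacter Λ x‖ ^ 2 + 2 * (2 * logOne q * logOne x) ^ 2 := by
    intro χ hχ
    rw [centredSum, if_neg (mem_erase.1 hχ).1, sub_zero]
    have h := norm_changeLevel_log_le χ.conductor_dvd_level χ.primitiveCharacter x
    rw [show DirichletCharacter.changeLevel χ.conductor_dvd_level χ.primitiveCharacter = χ from
      DirichletCharacter.changeLevel_primitiveCharacter χ] at h
    refine (pow_le_pow_left₀ (norm_nonneg _) h 2).trans ?_
    nlinarith [sq_nonneg (‖charSum χ.primitiveCharacter Λ x‖ - 2 * logOne q * logOne x)]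
  refine (sum_le_sum hstep).trans ?_
  rw [sum_add_distrib, ← mul_sum, sum_const, nsmul_eq_mul]
  refine add_le_add (mul_le_mul_of_nonneg_left ?_ zero_le_two)
    (mul_le_mul_of_nonneg_right (Nat.cast_le.2 ?_) (by positivity))
  · rw [← sum_image (f := fun z : Σ d : ℕ, DirichletCharacter ℂ d =>
      ‖charSum z.2 Λ x‖ ^ 2) hinj]
    exact sum_le_sum_of_subset_of_nonneg hsub fun _ _ _ => sq_nonneg _
  · rw [← DirichletCharacter.card_eq_totient_of_hasEnoughRootsOfUnity ℂ q,
      Nat.card_eq_fintype_card]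
    exact card_le_univ _

/-- One modulus. -/
theorem variance_le_inducing {q : ℕ} [NeZero q] (x : ℕ) :
    ∑ a ∈ unitResidues q, (psiAP x q a - x / q.totient) ^ 2 ≤
      2 * (∑ n ∈ Ioc 0 x, Λ n - x) ^ 2 * (1 / q.totient) +
        4 * (2 * logOne q * logOne x) ^ 2 +
        2 * ((∑ z ∈ inducing q, ‖charSum z.2 Λ x‖ ^ 2) / q.totient) := by
  classical
  have hφ : (0 : ℝ) < q.totient := Nat.cast_pos.2 (Nat.totient_pos.2 (NeZero.pos q))
  have hφ1 : (1 : ℝ) ≤ q.totient := by exact_mod_cast Nat.totient_pos.2 (NeZero.pos q)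
  refine (variance_le x).trans ?_
  rw [div_le_iff₀ hφ, ← add_sum_erase univ _ (mem_univ (1 : DirichletCharacter ℂ q))]
  obtain ⟨P, hP⟩ : ∃ P, P = ∑ n ∈ Ioc 0 x, Λ n - x := ⟨_, rfl⟩
  obtain ⟨E, hE⟩ : ∃ E, E = 2 * logOne q * logOne x := ⟨_, rfl⟩
  have h1 : ‖centredSum x (1 : DirichletCharacter ℂ q)‖ ^ 2 ≤ 2 * P ^ 2 + 2 * E ^ 2 := by
    have h := norm_centredSum_one_le (q := q) x
    rw [← hP, ← hE] at h
    refine (pow_le_pow_left₀ (norm_nonneg _) h 2).trans ?_
    rw [← sq_abs P]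
    nlinarith [sq_nonneg (|P| - E)]
  have h2 := sum_nontrivial_sq_le (q := q) x
  rw [← hE] at h2
  rw [← hP, ← hE]
  rw [add_mul, add_mul, mul_assoc (2 * P ^ 2), one_div_mul_cancel hφ.ne', mul_one,
    mul_assoc 2, div_mul_cancel₀ _ hφ.ne']
  nlinarith [mul_le_mul_of_nonneg_left hφ1 (sq_nonneg E)]

theorem logOne_le_logOne {a b : ℕ} (h : a ≤ b) : logOne a ≤ logOne b := by
  rw [logOne, logOne]
  rcases Nat.eq_zero_or_pos a with rfl | ha
  · simp [Real.log_natCast_nonneg]
  · linarith [Real.log_le_log (Nat.cast_pos.2 ha) (Nat.cast_le.2 h : (a : ℝ) ≤ b)]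

/-- The moduli of one conductor. -/
theorem sum_inducing_sq_le (Q x : ℕ) :
    ∑ q ∈ Icc 1 Q, (∑ z ∈ inducing q, ‖charSum z.2 Λ x‖ ^ 2) / q.totient ≤
      ∑ d ∈ Icc 2 Q, logOne (Q / d) ^ 2 * (1 / (d.totient : ℝ) * primSquare x d) := by
  have e : ∀ q ∈ Icc 1 Q, (∑ z ∈ inducing q, ‖charSum z.2 Λ x‖ ^ 2) / q.totient =
      ∑ d ∈ Icc 2 Q, if d ∣ q then primSquare x d / q.totient else 0 := by
    intro q hq
    rw [mem_Icc] at hq
    rw [inducing, sum_sigma, sum_div, ← sum_filter]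
    refine sum_congr ?_ fun d _ => rfl
    ext d
    simp only [mem_filter, mem_Icc, Nat.mem_divisors]
    constructor
    · rintro ⟨⟨h1, -⟩, h2⟩
      exact ⟨⟨h2, (Nat.le_of_dvd hq.1 h1).trans hq.2⟩, h1⟩
    · rintro ⟨⟨h2, -⟩, h1⟩
      exact ⟨⟨h1, by omega⟩, h2⟩
  rw [sum_congr rfl e, sum_comm]
  refine sum_le_sum fun d hd => ?_
  rw [mem_Icc] at hd
  have hd0 : 0 < d := by omega
  rw [← sum_filter]
  refine (sum_le_sum_of_subset_of_nonneg (t := (Icc 1 (Q / d)).image (d * ·)) ?_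
    fun q _ _ => div_nonneg (primSquare_nonneg x d) (Nat.cast_nonneg _)).trans ?_
  · intro q hq
    rw [mem_filter, mem_Icc] at hq
    obtain ⟨j, rfl⟩ := hq.2
    refine mem_image.2 ⟨j, mem_Icc.2 ⟨Nat.pos_of_mul_pos_left hq.1.1, ?_⟩, rfl⟩
    rw [Nat.le_div_iff_mul_le hd0, mul_comm]
    exact hq.1.2
  rw [sum_image fun a _ b _ h => Nat.eq_of_mul_eq_mul_left hd0 h]
  refine (sum_le_sum (g := fun k : ℕ => 1 / (d.totient : ℝ) * primSquare x d *
    (1 / (k.totient : ℝ))) fun k hk => ?_).trans ?_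
  · rw [mem_Icc] at hk
    rw [one_div_mul_eq_div, mul_one_div, div_div]
    refine div_le_div_of_nonneg_left (primSquare_nonneg x d) ?_ ?_
    · exact mul_pos (Nat.cast_pos.2 (Nat.totient_pos.2 hd0))
        (Nat.cast_pos.2 (Nat.totient_pos.2 hk.1))
    · exact_mod_cast Nat.totient_super_multiplicative d k
  · rw [← mul_sum, mul_comm]
    exact mul_le_mul_of_nonneg_right (sum_inv_totient_le _)
      (mul_nonneg (by positivity) (primSquare_nonneg x d))

/-- `∑ Λ² ≤ 6 x (1 + log x)`. -/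
theorem sum_vonMangoldt_sq_le (x : ℕ) : ∑ n ∈ Ioc 0 x, ‖(Λ n : ℂ)‖ ^ 2 ≤ 6 * x * logOne x := by
  refine (sum_le_sum (g := fun n => Λ n * logOne x) fun n hn => ?_).trans ?_
  · rw [Complex.norm_real, Real.norm_eq_abs, sq_abs, sq]
    refine mul_le_mul_of_nonneg_left ?_ vonMangoldt_nonneg
    rw [mem_Ioc] at hn
    exact vonMangoldt_le_log.trans (ThreePrimes.log_le_logOne (by omega))
  · rw [← sum_mul]
    refine mul_le_mul_of_nonneg_right (le_of_eq_of_le ?_ (ThreePrimes.sum_vonMangoldt_le x))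
      (by linarith [ThreePrimes.one_le_logOne x])
    rfl

/-- A dyadic range of conductors. -/
theorem block_le {Q x U : ℕ} (hU : 0 < U) (hQx : Q ≤ x) :
    ∑ d ∈ (Ioc U (2 * U)).filter (· ≤ Q), logOne (Q / d) ^ 2 *
      (1 / (d.totient : ℝ) * primSquare x d) ≤
        6 * x * logOne x * ((x : ℝ) * logOne x ^ 2 / U + 64 * (√(Q : ℝ) * √(U : ℝ))) := by
  obtain ⟨K, hK⟩ : ∃ K, K = min (logOne x ^ 2) (16 * √((Q : ℝ) / U)) := ⟨_, rfl⟩
  have hU' : (0 : ℝ) < U := Nat.cast_pos.2 hU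
  have hK0 : 0 ≤ K := hK ▸ le_min (sq_nonneg _) (by positivity)
  have hw : ∀ d, U < d → d ≤ Q → logOne (Q / d) ^ 2 ≤ K := by
    intro d hd hdQ
    rw [hK]
    refine le_min (pow_le_pow_left₀ (by linarith [ThreePrimes.one_le_logOne (Q / d)])
      (logOne_le_logOne ((Nat.div_le_self _ _).trans hQx)) 2) ?_
    have hk : 0 < Q / d := Nat.div_pos hdQ (by omega)
    obtain ⟨y, hy⟩ : ∃ y : ℝ, y = ((Q / d : ℕ) : ℝ) := ⟨_, rfl⟩
    have hy0 : 0 < y := hy ▸ Nat.cast_pos.2 hk
    have hyle : y ≤ (Q : ℝ) / U := hy ▸ (Nat.cast_div_le.trans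
      (div_le_div_of_nonneg_left (Nat.cast_nonneg Q) hU' (Nat.cast_le.2 hd.le)))
    have hlog : logOne (Q / d) ≤ 4 * √(√y) := by
      have h := Real.log_le_sub_one_of_pos (Real.sqrt_pos.2 (Real.sqrt_pos.2 hy0))
      rw [Real.log_sqrt (Real.sqrt_nonneg _), Real.log_sqrt hy0.le] at h
      rw [logOne, ← hy]
      linarith
    refine (pow_le_pow_left₀ (by linarith [ThreePrimes.one_le_logOne (Q / d)]) hlog 2).trans ?_
    rw [mul_pow, Real.sq_sqrt (Real.sqrt_nonneg _), show (4 : ℝ) ^ 2 = 16 by norm_num]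
    exact mul_le_mul_of_nonneg_left (Real.sqrt_le_sqrt hyle) (by norm_num)
  have hL := ThreePrimes.one_le_logOne x
  have hsieve : ∑ d ∈ Icc 1 (2 * U), (d : ℝ) / d.totient * primSquare x d ≤
      ((x : ℝ) + ((2 * U : ℕ) : ℝ) * (2 * U : ℕ)) * (6 * x * logOne x) := by
    have h := largeSieve_chars_sharp (2 * U) 0 x fun n => (Λ n : ℂ)
    rw [Nat.zero_add] at h
    exact h.trans (mul_le_mul_of_nonneg_left (sum_vonMangoldt_sq_le x) (by positivity))
  refine (sum_le_sum (g := fun d : ℕ => K / U * ((d : ℝ) / d.totient * primSquare x d))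
    fun d hd => ?_).trans ?_
  · rw [mem_filter, mem_Ioc] at hd
    have hd0 : (U : ℝ) ≤ d := Nat.cast_le.2 hd.1.1.le
    rw [show K / (U : ℝ) * ((d : ℝ) / d.totient * primSquare x d) =
      K * ((d : ℝ) / U * (1 / d.totient * primSquare x d)) by ring]
    refine mul_le_mul (hw d hd.1.1 hd.2) (le_mul_of_one_le_left ?_ ?_)
      (mul_nonneg (by positivity) (primSquare_nonneg x d)) hK0
    · exact mul_nonneg (by positivity) (primSquare_nonneg x d)
    · rwa [one_le_div hU']
  rw [← mul_sum]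
  refine (mul_le_mul_of_nonneg_left ((sum_le_sum_of_subset_of_nonneg (fun d hd => ?_)
    fun d _ _ => mul_nonneg (by positivity) (primSquare_nonneg x d)).trans hsieve)
      (div_nonneg hK0 hU'.le)).trans ?_
  · rw [mem_filter, mem_Ioc] at hd
    rw [mem_Icc]
    omega
  push_cast
  have h1 : K * x / U ≤ x * logOne x ^ 2 / U := by
    rw [mul_comm K]
    exact div_le_div_of_nonneg_right
      (mul_le_mul_of_nonneg_left (hK ▸ min_le_left _ _) (Nat.cast_nonneg x)) hU'.le
  have h2 : 4 * K * U ≤ 64 * (√(Q : ℝ) * √(U : ℝ)) := by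
    have h3 : K ≤ 16 * √((Q : ℝ) / U) := hK ▸ min_le_right _ _
    refine (mul_le_mul_of_nonneg_right (mul_le_mul_of_nonneg_left h3 (by norm_num)) hU'.le).trans
      (le_of_eq ?_)
    obtain ⟨u, hu⟩ : ∃ u, u = √(U : ℝ) := ⟨_, rfl⟩
    have hu0 : 0 < u := hu ▸ Real.sqrt_pos.2 hU'
    have huu : (U : ℝ) = u * u := by rw [hu, Real.mul_self_sqrt hU'.le]
    rw [Real.sqrt_div (Nat.cast_nonneg Q), ← hu, huu]
    field_simp
    ring
  have e : K / (U : ℝ) * (((x : ℝ) + 2 * U * (2 * U)) * (6 * x * logOne x)) =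
      6 * x * logOne x * (K * x / U + 4 * K * U) := by
    field_simp
    ring
  rw [e]
  exact mul_le_mul_of_nonneg_left (add_le_add h1 h2) (by positivity)

end FA.BarbanDavenportHalberstam
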