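import Fermat.Agent.BarbanDavenportHalberstam.Basic

/-!
# The theorem of Barban, Davenport and Halberstam

`∑_{q ≤ Q} ∑_{(a, q) = 1} (ψ (x; q, a) - x / φ q)² = O (x Q log x)` for
`x / (log x) ^ A ≤ Q ≤ x`.
-/

set_option autoImplicit false

noncomputable section

namespace FA.BarbanDavenportHalberstam

open Finset ArithmeticFunction
open FA.ThreePrimes (logOne unitResidues)
open FA.BombieriVinogradov
open scoped Real

/-- The conductors above `U`. -/
theorem large_conductors_le {Q x : ℕ} (hQx : Q ≤ x) : ∀ (n U : ℕ), 2 * Q - U = n → 0 < U →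
    U ≤ 2 * Q → ∑ d ∈ Ioc U Q, logOne (Q / d) ^ 2 * (1 / (d.totient : ℝ) * primSquare x d) ≤
      6 * x * logOne x *
        (2 * ((x : ℝ) * logOne x ^ 2 / U) + 160 * √(Q : ℝ) * (√(2 * Q) - √(U : ℝ))) := by
  intro n
  induction n using Nat.strong_induction_on with
  | h n ih =>
    intro U hn hU hU2
    have hU' : (0 : ℝ) < U := Nat.cast_pos.2 hU
    have hU2' : (U : ℝ) ≤ 2 * Q := by exact_mod_cast hU2
    have hs : √(U : ℝ) ≤ √(2 * Q) := Real.sqrt_le_sqrt hU2'
    have hL := ThreePrimes.one_le_logOne x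
    have hpos : 0 ≤ 6 * (x : ℝ) * logOne x := by positivity
    rcases le_or_gt Q U with h | h
    · rw [Ioc_eq_empty (not_lt.2 h), sum_empty]
      refine mul_nonneg hpos (add_nonneg (by positivity) (mul_nonneg (by positivity) ?_))
      linarith
    have hsub : ∑ d ∈ Ioc U Q, logOne (Q / d) ^ 2 * (1 / (d.totient : ℝ) * primSquare x d) ≤
        (∑ d ∈ (Ioc U (2 * U)).filter (· ≤ Q),
          logOne (Q / d) ^ 2 * (1 / (d.totient : ℝ) * primSquare x d)) +
        ∑ d ∈ Ioc (2 * U) Q, logOne (Q / d) ^ 2 * (1 / (d.totient : ℝ) * primSquare x d) := by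
      rw [← sum_union (disjoint_left.2 fun d h1 h2 => by
        simp only [mem_filter, mem_Ioc] at h1 h2
        omega)]
      refine sum_le_sum_of_subset_of_nonneg (fun d hd => ?_) fun d _ _ =>
        mul_nonneg (sq_nonneg _) (mul_nonneg (by positivity) (primSquare_nonneg x d))
      simp only [mem_union, mem_filter, mem_Ioc] at hd ⊢
      omega
    refine hsub.trans ((add_le_add (block_le hU hQx)
      (ih (2 * Q - 2 * U) (by omega) (2 * U) rfl (by omega) (by omega))).trans ?_)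
    rw [← mul_add]
    refine mul_le_mul_of_nonneg_left ?_ hpos
    push_cast
    have e : 2 * ((x : ℝ) * logOne x ^ 2 / (2 * U)) = (x : ℝ) * logOne x ^ 2 / U := by
      field_simp
    rw [e, Real.sqrt_mul (by norm_num : (0 : ℝ) ≤ 2) (U : ℝ)]
    have h2 : (141 : ℝ) / 100 ≤ √2 := Real.le_sqrt_of_sq_le (by norm_num)
    nlinarith [mul_nonneg (mul_nonneg (Real.sqrt_nonneg (Q : ℝ)) (Real.sqrt_nonneg (U : ℝ)))
      (sub_nonneg.2 h2), mul_nonneg (Real.sqrt_nonneg (Q : ℝ)) (Real.sqrt_nonneg (U : ℝ))]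

/-- `(log x) ^ 3 ≤ 27 x`. -/
theorem log_pow_three_le {x : ℕ} (hx : 0 < x) : Real.log x ^ 3 ≤ 27 * x := by
  have hx0 : (0 : ℝ) < x := Nat.cast_pos.2 hx
  obtain ⟨w, hw⟩ : ∃ w, w = (x : ℝ) ^ (1 / 3 : ℝ) := ⟨_, rfl⟩
  have hw0 : 0 < w := hw ▸ Real.rpow_pos_of_pos hx0 _
  have hw3 : w ^ 3 = x := by
    rw [hw, ← Real.rpow_natCast, ← Real.rpow_mul hx0.le]
    norm_num
  have h := Real.log_le_sub_one_of_pos hw0
  rw [hw, Real.log_rpow hx0, ← hw] at h
  refine (pow_le_pow_left₀ (Real.log_natCast_nonneg x) (show Real.log x ≤ 3 * w by linarith)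
    3).trans (le_of_eq ?_)
  rw [mul_pow, hw3]
  norm_num

/-- **The theorem of Barban, Davenport and Halberstam.** -/
theorem exists_bdh (A : ℕ) : ∃ C : ℝ, 0 < C ∧ ∀ x : ℕ, 3 ≤ x → ∀ Q : ℕ,
    (x : ℝ) / Real.log x ^ A ≤ Q → Q ≤ x →
      ∑ q ∈ Icc 1 Q, ∑ a ∈ unitResidues q, (psiAP x q a - x / q.totient) ^ 2 ≤
        C * ((x : ℝ) * Q * Real.log x) := by
  obtain ⟨C, hC, hsmall⟩ := exists_small_le (A + 1) (2 * A + 4)
  refine ⟨40 * C ^ 2 + 20000, by positivity, fun x hx Q hAQ hQx => ?_⟩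
  obtain ⟨hψ, hchar⟩ := hsmall x hx
  obtain ⟨l, hl⟩ : ∃ l, l = Real.log x := ⟨_, rfl⟩
  rw [← hl] at hψ hchar hAQ ⊢
  have hx0 : (0 : ℝ) < x := Nat.cast_pos.2 (by omega)
  have hl1 : 1 ≤ l := by
    rw [hl, Real.le_log_iff_exp_le hx0]
    have : (3 : ℝ) ≤ x := by exact_mod_cast hx
    linarith [Real.exp_one_lt_d9]
  have hl0 : 0 < l := by linarith
  have hL : logOne x ≤ 2 * l := by rw [logOne, ← hl]; linarith
  have hL1 := ThreePrimes.one_le_logOne x
  have hQ0 : 0 < Q := by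
    rcases Nat.eq_zero_or_pos Q with rfl | h
    · rw [Nat.cast_zero] at hAQ
      linarith [show 0 < (x : ℝ) / l ^ A by positivity]
    · exact h
  obtain ⟨M, hM⟩ : ∃ M, M = (x : ℝ) * Q := ⟨_, rfl⟩
  have hM0 : 0 ≤ M := hM ▸ by positivity
  rw [← hM]
  have hxA : (x : ℝ) * ((x : ℝ) / l ^ A) ≤ M := hM ▸ mul_le_mul_of_nonneg_left hAQ hx0.le
  have hsq : (C * x / l ^ (2 * A + 4)) ^ 2 * (l ^ (3 * A + 8)) =
      C ^ 2 * ((x : ℝ) * ((x : ℝ) / l ^ A)) := by
    rw [div_pow, ← pow_mul, show (2 * A + 4) * 2 = (3 * A + 8) + A by ring, pow_add]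
    field_simp
  obtain ⟨D, hD⟩ : ∃ D, D = ⌊l ^ (A + 2)⌋₊ := ⟨_, rfl⟩
  have hD1 : 1 ≤ D := hD ▸ Nat.le_floor (by rw [Nat.cast_one]; exact one_le_pow₀ hl1)
  have hDle : (D : ℝ) ≤ l ^ (A + 2) := hD ▸ Nat.floor_le (by positivity)
  have hDge : l ^ (A + 2) ≤ 2 * D := by
    have h1 := Nat.lt_floor_add_one (l ^ (A + 2))
    rw [← hD] at h1
    have : (1 : ℝ) ≤ D := by exact_mod_cast hD1
    linarith
  -- the small conductors
  have hsm : ∑ d ∈ Icc 2 D, logOne (Q / d) ^ 2 * (1 / (d.totient : ℝ) * primSquare x d) ≤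
      4 * C ^ 2 * M := by
    have hB : ∀ d ∈ Icc 2 D, logOne (Q / d) ^ 2 * (1 / (d.totient : ℝ) * primSquare x d) ≤
        (2 * l) ^ 2 * ((D : ℝ) * (C * x / l ^ (2 * A + 4))) ^ 2 := by
      intro d hd
      rw [mem_Icc] at hd
      have hdl : (d : ℝ) ≤ l ^ (A + 1 + 1) := (Nat.cast_le.2 hd.2).trans hDle
      refine mul_le_mul (pow_le_pow_left₀ (by linarith [ThreePrimes.one_le_logOne (Q / d)])
        ((logOne_le_logOne ((Nat.div_le_self _ _).trans hQx)).trans hL) 2) ?_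
        (mul_nonneg (by positivity) (primSquare_nonneg x d)) (sq_nonneg _)
      have hφ : (0 : ℝ) < d.totient := Nat.cast_pos.2 (Nat.totient_pos.2 (by omega))
      rw [one_div_mul_eq_div, div_le_iff₀ hφ, mul_comm _ (d.totient : ℝ)]
      refine (sum_le_card_nsmul _ _ _ fun χ hχ => pow_le_pow_left₀ (norm_nonneg _)
        ((hchar d hd.1 hdl χ hχ).trans (mul_le_mul_of_nonneg_right (Nat.cast_le.2 hd.2)
          (by positivity))) 2).trans ?_
      rw [nsmul_eq_mul]
      exact mul_le_mul_of_nonneg_right (Nat.cast_le.2 (card_primChars_le d)) (sq_nonneg _)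
    refine (sum_le_card_nsmul _ _ _ hB).trans ?_
    rw [nsmul_eq_mul]
    refine (mul_le_mul_of_nonneg_right (Nat.cast_le.2 (by simp : (Icc 2 D).card ≤ D))
      (by positivity)).trans ?_
    calc (D : ℝ) * ((2 * l) ^ 2 * ((D : ℝ) * (C * x / l ^ (2 * A + 4))) ^ 2)
        = 4 * ((D : ℝ) ^ 3 * l ^ 2 * (C * x / l ^ (2 * A + 4)) ^ 2) := by ring
      _ ≤ 4 * ((l ^ (A + 2)) ^ 3 * l ^ 2 * (C * x / l ^ (2 * A + 4)) ^ 2) := by gcongr
      _ = 4 * ((C * x / l ^ (2 * A + 4)) ^ 2 * l ^ (3 * A + 8)) := by ring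
      _ ≤ 4 * C ^ 2 * M := by
        rw [hsq, mul_assoc 4 (C ^ 2)]
        exact mul_le_mul_of_nonneg_left (mul_le_mul_of_nonneg_left hxA (sq_nonneg C)) (by norm_num)
  -- the large conductors
  have hlg : ∑ d ∈ Ioc D Q, logOne (Q / d) ^ 2 * (1 / (d.totient : ℝ) * primSquare x d) ≤
      4100 * (M * l) := by
    rcases le_or_gt Q D with h | h
    · rw [Ioc_eq_empty (not_lt.2 h), sum_empty]
      positivity
    refine (large_conductors_le hQx _ D rfl hD1 (by omega)).trans ?_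
    have h1 : (x : ℝ) * logOne x ^ 2 / D ≤ 8 * Q := by
      rw [div_le_iff₀ (Nat.cast_pos.2 hD1)]
      refine (mul_le_mul_of_nonneg_left (pow_le_pow_left₀ (by linarith) hL 2) hx0.le).trans ?_
      calc (x : ℝ) * (2 * l) ^ 2 = 4 * ((x : ℝ) / l ^ A) * l ^ (A + 2) := by
            rw [pow_add]; field_simp; ring
        _ ≤ 4 * Q * (2 * D) :=
            mul_le_mul (mul_le_mul_of_nonneg_left hAQ (by norm_num)) hDge (by positivity)
              (by positivity)
        _ = 8 * Q * D := by ring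
    have h2 : 160 * √(Q : ℝ) * (√(2 * Q) - √(D : ℝ)) ≤ 320 * Q := by
      refine (mul_le_mul_of_nonneg_left (sub_le_self _ (Real.sqrt_nonneg _))
        (by positivity)).trans ?_
      rw [Real.sqrt_mul (by norm_num : (0 : ℝ) ≤ 2), show 160 * √(Q : ℝ) * (√2 * √(Q : ℝ)) =
        160 * √2 * (√(Q : ℝ) * √(Q : ℝ)) by ring, Real.mul_self_sqrt (Nat.cast_nonneg Q)]
      have h : √2 ≤ 2 := by rw [Real.sqrt_le_iff]; constructor <;> norm_num
      refine mul_le_mul_of_nonneg_right ?_ (Nat.cast_nonneg Q)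
      linarith
    calc 6 * (x : ℝ) * logOne x * (2 * ((x : ℝ) * logOne x ^ 2 / D) +
          160 * √(Q : ℝ) * (√(2 * Q) - √(D : ℝ))) ≤ 6 * x * (2 * l) * (336 * Q) := by
          refine mul_le_mul (mul_le_mul_of_nonneg_left hL (by positivity)) (by linarith) ?_
            (by positivity)
          refine add_nonneg (by positivity) (mul_nonneg (by positivity) ?_)
          have : (D : ℝ) ≤ 2 * Q := by exact_mod_cast (show D ≤ 2 * Q by omega)
          linarith [Real.sqrt_le_sqrt this]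
      _ ≤ _ := by
          rw [hM]
          nlinarith [mul_nonneg (mul_nonneg hx0.le (Nat.cast_nonneg Q)) hl0.le]
  -- the three parts
  have hone : ∀ q ∈ Icc 1 Q, ∑ a ∈ unitResidues q, (psiAP x q a - x / q.totient) ^ 2 ≤
      2 * (∑ n ∈ Ioc 0 x, Λ n - x) ^ 2 * (1 / q.totient) + 64 * (2 * l) ^ 2 * l ^ 2 +
        2 * ((∑ z ∈ inducing q, ‖charSum z.2 Λ x‖ ^ 2) / q.totient) := by
    intro q hq
    rw [mem_Icc] at hq
    have : NeZero q := ⟨by omega⟩
    refine (variance_le_inducing x).trans (add_le_add (add_le_add le_rfl ?_) le_rfl)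
    have h1 : logOne q ≤ 2 * l := (logOne_le_logOne (hq.2.trans hQx)).trans hL
    calc 4 * (2 * logOne q * logOne x) ^ 2 ≤ 4 * (2 * (2 * l) * (2 * l)) ^ 2 := by
          have hq1 := ThreePrimes.one_le_logOne q
          refine mul_le_mul_of_nonneg_left (pow_le_pow_left₀ ?_
            (mul_le_mul (mul_le_mul_of_nonneg_left h1 zero_le_two) hL (by linarith)
              (by positivity)) 2) (by norm_num)
          exact mul_nonneg (mul_nonneg zero_le_two (by linarith)) (by linarith)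
      _ = _ := by ring
  refine (sum_le_sum hone).trans ?_
  rw [sum_add_distrib, sum_add_distrib, ← mul_sum, sum_const, Nat.card_Icc, Nat.add_sub_cancel,
    nsmul_eq_mul, ← mul_sum]
  have hA : 2 * (∑ n ∈ Ioc 0 x, Λ n - x) ^ 2 * ∑ q ∈ Icc 1 Q, (1 : ℝ) / q.totient ≤
      8 * C ^ 2 * M := by
    rw [← sq_abs]
    refine (mul_le_mul (mul_le_mul_of_nonneg_left (pow_le_pow_left₀ (abs_nonneg _) hψ 2)
      zero_le_two) ((sum_inv_totient_le Q).trans (pow_le_pow_left₀
        (by linarith [ThreePrimes.one_le_logOne Q]) ((logOne_le_logOne hQx).trans hL) 2))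
      (sum_nonneg fun k _ => by positivity) (by positivity)).trans ?_
    calc 2 * (C * x / l ^ (2 * A + 4)) ^ 2 * (2 * l) ^ 2
        = 8 * ((C * x / l ^ (2 * A + 4)) ^ 2 * l ^ 2) := by ring
      _ ≤ 8 * ((C * x / l ^ (2 * A + 4)) ^ 2 * l ^ (3 * A + 8)) := by
          gcongr
          · omega
      _ ≤ _ := by
        rw [hsq, mul_assoc 8 (C ^ 2)]
        exact mul_le_mul_of_nonneg_left (mul_le_mul_of_nonneg_left hxA (sq_nonneg C)) (by norm_num)
  have hB : (Q : ℝ) * (64 * (2 * l) ^ 2 * l ^ 2) ≤ 7000 * (M * l) := by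
    have h3 := log_pow_three_le (show 0 < x by omega)
    rw [← hl] at h3
    rw [hM]
    nlinarith [mul_le_mul_of_nonneg_left h3 (mul_nonneg (Nat.cast_nonneg Q) hl0.le),
      mul_nonneg (mul_nonneg hx0.le (Nat.cast_nonneg Q)) hl0.le]
  have hCsum : ∑ q ∈ Icc 1 Q, (∑ z ∈ inducing q, ‖charSum z.2 Λ x‖ ^ 2) / q.totient ≤
      4 * C ^ 2 * M + 4100 * (M * l) := by
    refine (sum_inducing_sq_le Q x).trans (le_trans ?_ (add_le_add hsm hlg))
    rw [← sum_union (disjoint_left.2 fun d h1 h2 => by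
      rw [mem_Icc] at h1
      rw [mem_Ioc] at h2
      omega)]
    refine sum_le_sum_of_subset_of_nonneg (fun d hd => ?_) fun d _ _ =>
      mul_nonneg (sq_nonneg _) (mul_nonneg (by positivity) (primSquare_nonneg x d))
    simp only [mem_union, mem_Icc, mem_Ioc] at hd ⊢
    omega
  have : C ^ 2 * M ≤ C ^ 2 * (M * l) :=
    mul_le_mul_of_nonneg_left (le_mul_of_one_le_right hM0 hl1) (sq_nonneg C)
  have : 0 ≤ C ^ 2 * (M * l) := by positivity
  have : 0 ≤ M * l := by positivity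
  linarith

end FA.BarbanDavenportHalberstam
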